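import Fermat.Agent.HilbertFifth.LieAlgebra
import Mathlib.Analysis.Normed.Module.FiniteDimension
import Mathlib.Topology.Homeomorph.Defs
import Mathlib.Topology.Algebra.Group.Basic

/-!
# The exponential chart of a closed group

The exponential map restricts to a homeomorphism of a neighbourhood of `0` in the Lie algebra onto
a neighbourhood of `1` in the group, so a group with a closed embedding into a finite-dimensional
algebra is locally homeomorphic to a Euclidean space.
-/

set_option autoImplicit false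
set_option linter.unusedSectionVars false
set_option linter.style.haveILetI false

noncomputable section

open NormedSpace Topology Filter

namespace FA.HilbertFifth

variable {A : Type*} [NormedRing A] [NormedAlgebra ℝ A] [NormedAlgebra ℚ A] [FiniteDimensional ℝ A]
  [CompleteSpace A] {H : Set A}

/-- **The exponential chart at `1`.** -/
theorem exists_exp_chart (hH : IsClosedGroupSet H) :
    ∃ U : Set A, IsOpen U ∧ (1 : A) ∈ U ∧ ∃ V : Set (lieAlg H hH), IsOpen V ∧ 0 ∈ V ∧
      ∃ e : V ≃ₜ (H ∩ U : Set A), ∀ v : V, (e v : A) = exp ((v : lieAlg H hH) : A) := by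
  set g := lieAlg H hH with hg
  obtain ⟨W, hW⟩ := g.exists_isCompl
  let E : (g × W) ≃L[ℝ] A := (Submodule.prodEquivOfIsCompl g W hW).toContinuousLinearEquiv
  have hE : ∀ p : g × W, E p = (p.1 : A) + p.2 := fun p =>
    Submodule.coe_prodEquivOfIsCompl' g W hW p
  let Φ : g × W → A := fun p => exp (p.1 : A) * exp (p.2 : A)
  have hΦ : HasStrictFDerivAt Φ (E : g × W →L[ℝ] A) 0 := by
    have h1 := HasStrictFDerivAt.comp (0 : g × W)
      (g := (exp : A → A)) (by simpa using hasStrictFDerivAt_exp_zero (𝕂 := ℝ) (𝔸 := A))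
      ((g.subtypeL.comp (ContinuousLinearMap.fst ℝ g W)).hasStrictFDerivAt)
    have h2 := HasStrictFDerivAt.comp (0 : g × W)
      (g := (exp : A → A)) (by simpa using hasStrictFDerivAt_exp_zero (𝕂 := ℝ) (𝔸 := A))
      ((W.subtypeL.comp (ContinuousLinearMap.snd ℝ g W)).hasStrictFDerivAt)
    refine (h1.fun_mul' h2).congr_fderiv (ContinuousLinearMap.ext fun p => ?_)
    simp [hE, add_comm]
  set P := hΦ.toOpenPartialHomeomorph Φ with hP
  have hΦv : ∀ v : g, Φ (v, 0) = exp (v : A) := fun v => by simp [Φ]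
  have hmemv : ∀ v : g, exp (v : A) ∈ H := fun v => by
    have h := v.2 1
    rwa [one_smul] at h
  have hkey : ∃ ε > 0, ∀ p : g × W, ‖p‖ < ε → Φ p ∈ H → p.2 = 0 := by
    by_contra hcon
    push Not at hcon
    choose p hp hpH hp0 using fun k : ℕ =>
      hcon (1 / ((k : ℝ) + 1)) (Nat.one_div_pos_of_nat)
    have hwH : ∀ k, exp ((p k).2 : A) ∈ H := fun k => by
      have h := hH.mul_mem _ (hH.exp_neg_mem (hmemv (p k).1)) _ (hpH k)
      rwa [← mul_assoc, ← exp_add_of_commute (Commute.refl _).neg_left, neg_add_cancel, exp_zero,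
        one_mul] at h
    have hwn : ∀ k, ((p k).2 : A) ≠ 0 := fun k h => hp0 k (Subtype.ext h)
    have hwlim : Tendsto (fun k => ((p k).2 : A)) atTop (𝓝 0) := by
      refine squeeze_zero_norm (fun k => ?_) tendsto_one_div_add_atTop_nhds_zero_nat
      exact le_trans (norm_snd_le (p k)) (hp k).le
    let z : ℕ → A := fun k => ‖((p k).2 : A)‖⁻¹ • ((p k).2 : A)
    have hz : ∀ k, z k ∈ Metric.sphere (0 : A) 1 ∩ (W : Set A) := fun k =>
      ⟨by simp [z, norm_smul, hwn k], W.smul_mem _ (p k).2.2⟩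
    haveI : ProperSpace A := FiniteDimensional.proper_real A
    obtain ⟨X, hX, φ, hφ, hlim⟩ :=
      ((isCompact_sphere (0 : A) 1).inter_right W.closed_of_finiteDimensional).tendsto_subseq hz
    have hXg : X ∈ g := mem_lieSet_of_tendsto hH (hwlim.comp hφ.tendsto_atTop)
      (Eventually.of_forall fun k => hwH (φ k))
      (a := fun k => ‖((p (φ k)).2 : A)‖⁻¹) (fun k => inv_nonneg.2 (norm_nonneg _)) hlim
    have hX0 : X = 0 := (Submodule.mem_bot ℝ).1 (hW.disjoint.le_bot ⟨hXg, hX.2⟩)
    rw [hX0] at hX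
    simp at hX
  obtain ⟨ε, hε, hzero⟩ := hkey
  set O : Set (g × W) := P.source ∩ Metric.ball 0 ε with hO
  have hO0 : (0 : g × W) ∈ O :=
    ⟨hΦ.mem_toOpenPartialHomeomorph_source, Metric.mem_ball_self hε⟩
  have hOo : IsOpen O := P.open_source.inter Metric.isOpen_ball
  have hcoe : ∀ p, P p = Φ p := fun p => rfl
  refine ⟨P '' O, P.isOpen_image_of_subset_source hOo Set.inter_subset_left,
    ⟨0, hO0, by rw [hcoe]; simp [Φ]⟩, {v : g | ((v, 0) : g × W) ∈ O},
    hOo.preimage (continuous_id.prodMk continuous_const), hO0, ?_⟩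
  have hsymm : ∀ x ∈ H ∩ P '' O, ((P.symm x).1, (0 : W)) ∈ O ∧ exp ((P.symm x).1 : A) = x := by
    rintro x ⟨hxH, p, hp, rfl⟩
    rw [P.left_inv hp.1]
    have h2 : p.2 = 0 := hzero p (by simpa [Metric.mem_ball, dist_eq_norm] using hp.2) hxH
    rw [show ((p.1, (0 : W)) : g × W) = p by rw [← h2]]
    exact ⟨hp, by rw [← hΦv, show ((p.1, (0 : W)) : g × W) = p by rw [← h2], hcoe]⟩
  refine ⟨{
    toFun := fun v => ⟨exp ((v : g) : A), hmemv v, ((v : g), 0), v.2, by rw [hcoe, hΦv]⟩
    invFun := fun x => ⟨(P.symm x.1).1, (hsymm x.1 x.2).1⟩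
    left_inv := fun v => Subtype.ext (by
      show (P.symm (exp ((v : g) : A))).1 = (v : g)
      rw [← hΦv, ← hcoe, P.left_inv v.2.1])
    right_inv := fun x => Subtype.ext (hsymm x.1 x.2).2
    continuous_toFun := ((exp_continuous.comp
      (continuous_subtype_val.comp continuous_subtype_val))).subtype_mk _
    continuous_invFun := (continuous_fst.comp
      (P.continuousOn_symm.comp_continuous continuous_subtype_val fun x => by
        obtain ⟨-, p, hp, hpx⟩ := x.2
        rw [← hpx]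
        exact P.map_source hp.1)).subtype_mk _ }, fun v => rfl⟩

/-- **A group embedded as a closed group of units is locally Euclidean.** -/
theorem exists_euclidean_chart {G : Type*} [TopologicalSpace G] [Group G] [IsTopologicalGroup G]
    (φ : G →* A) (hφ : IsEmbedding φ) (hH : IsClosedGroupSet (Set.range φ)) :
    ∃ d : ℕ, ∀ x : G, ∃ (U : Set G) (V : Set (Fin d → ℝ)),
      IsOpen U ∧ x ∈ U ∧ IsOpen V ∧ Nonempty (U ≃ₜ V) := by
  obtain ⟨U, hU, h1, V, hV, -, e, he⟩ := exists_exp_chart hH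
  let b : (lieAlg (Set.range φ) hH) ≃L[ℝ] (Fin (Module.finrank ℝ (lieAlg (Set.range φ) hH)) → ℝ) :=
    (Module.finBasis ℝ (lieAlg (Set.range φ) hH)).equivFun.toContinuousLinearEquiv
  let ψ : G ≃ₜ Set.range φ := hφ.toHomeomorph
  have hψ : ∀ a, (ψ a : A) = φ a := fun a => rfl
  have hψs : ∀ y, φ (ψ.symm y) = (y : A) := fun y => by rw [← hψ, ψ.apply_symm_apply]
  refine ⟨Module.finrank ℝ (lieAlg (Set.range φ) hH), fun x => ⟨{a | φ (x⁻¹ * a) ∈ U}, b '' V,
    hU.preimage (hφ.continuous.comp (continuous_const_mul x⁻¹)), ?_,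
    b.toHomeomorph.isOpenMap _ hV, ⟨?_⟩⟩⟩
  · show φ (x⁻¹ * x) ∈ U
    rwa [inv_mul_cancel, map_one]
  · have hmem : ∀ v : V, x * ψ.symm ⟨(e v : A), (e v).2.1⟩ ∈ {a | φ (x⁻¹ * a) ∈ U} := fun v => by
      show φ (x⁻¹ * (x * ψ.symm ⟨(e v : A), (e v).2.1⟩)) ∈ U
      rw [inv_mul_cancel_left, hψs]
      exact (e v).2.2
    refine ({
      toFun := fun a => e.symm ⟨φ (x⁻¹ * a.1), ⟨_, rfl⟩, a.2⟩
      invFun := fun v => ⟨x * ψ.symm ⟨(e v : A), (e v).2.1⟩, hmem v⟩
      left_inv := fun a => Subtype.ext (by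
        simp only [e.apply_symm_apply]
        rw [show (⟨φ (x⁻¹ * a.1), ⟨_, rfl⟩⟩ : Set.range φ) = ψ (x⁻¹ * a.1) from rfl,
          ψ.symm_apply_apply, mul_inv_cancel_left])
      right_inv := fun v => e.injective (Subtype.ext (by
        rw [e.apply_symm_apply]
        show φ (x⁻¹ * (x * ψ.symm ⟨(e v : A), (e v).2.1⟩)) = (e v : A)
        rw [inv_mul_cancel_left, hψs]))
      continuous_toFun := e.symm.continuous.comp
        ((hφ.continuous.comp ((continuous_const_mul x⁻¹).comp continuous_subtype_val)).subtype_mk _)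
      continuous_invFun := ((continuous_const_mul x).comp (ψ.symm.continuous.comp
        ((continuous_subtype_val.comp e.continuous).subtype_mk fun v => (e v).2.1))).subtype_mk
          hmem } :
      {a | φ (x⁻¹ * a) ∈ U} ≃ₜ V).trans (b.toHomeomorph.image V)

end FA.HilbertFifth

end
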