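import Fermat.Agent.ComplexGalois.FiniteImage
import Fermat.Agent.HilbertFifth.Chart
import Fermat.Agent.PeterWeyl.Faithful
import Fermat.Agent.PeterWeyl.Operations
import Mathlib.Analysis.CStarAlgebra.Matrix
import Mathlib.Analysis.Normed.Ring.Units
import Mathlib.Topology.Algebra.ClopenNhdofOne

/-!
# Closed matrix groups and compact groups

Closed subgroups of `GL n ℂ` carry exponential charts.  A compact group without small subgroups
embeds into a unitary group, hence is locally Euclidean; in any compact group the kernels of unitary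
representations are arbitrarily small, and representations of totally disconnected compact groups
have finite image.
-/

set_option autoImplicit false
set_option linter.unusedSectionVars false
set_option linter.style.haveILetI false

noncomputable section

open Topology Filter
open scoped Matrix Matrix.Norms.L2Operator

namespace FA.HilbertFifth

/-- The matrices of a closed subgroup of `GL n ℂ`. -/
theorem isClosedGroupSet_of_subgroup {n : ℕ} {H : Subgroup (GL (Fin n) ℂ)}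
    (hH : IsClosed (H : Set (GL (Fin n) ℂ))) :
    IsClosedGroupSet ((fun g : GL (Fin n) ℂ => (g : Matrix (Fin n) (Fin n) ℂ)) '' H) where
  closed := by
    rintro x ⟨u, rfl⟩ hx
    have hemb : IsEmbedding (Units.val : GL (Fin n) ℂ → Matrix (Fin n) (Fin n) ℂ) :=
      Units.isOpenEmbedding_val.isEmbedding
    have h : u ∈ closure (H : Set (GL (Fin n) ℂ)) := by
      rw [hemb.closure_eq_preimage_closure_image]
      exact hx
    exact ⟨u, hH.closure_subset h, rfl⟩
  one_mem := ⟨1, H.one_mem, rfl⟩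
  mul_mem := by
    rintro _ ⟨a, ha, rfl⟩ _ ⟨b, hb, rfl⟩
    exact ⟨a * b, H.mul_mem ha hb, rfl⟩
  exists_inv := by
    rintro _ ⟨a, ha, rfl⟩
    exact ⟨_, ⟨a⁻¹, H.inv_mem ha, rfl⟩, a.mul_inv⟩

/-- **The Lie algebra of a closed matrix group.** -/
theorem exists_lieAlgebra {n : ℕ} {H : Subgroup (GL (Fin n) ℂ)}
    (hH : IsClosed (H : Set (GL (Fin n) ℂ))) :
    ∃ L : Submodule ℝ (Matrix (Fin n) (Fin n) ℂ),
      (∀ X, X ∈ L ↔ ∀ t : ℝ, ∃ h ∈ H, (h : Matrix (Fin n) (Fin n) ℂ) = NormedSpace.exp (t • X)) ∧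
      (∀ X ∈ L, ∀ Y ∈ L, X * Y - Y * X ∈ L) ∧
      ∃ U : Set (Matrix (Fin n) (Fin n) ℂ), IsOpen U ∧ 1 ∈ U ∧ ∃ V : Set L, IsOpen V ∧ 0 ∈ V ∧
        ∃ e : V ≃ₜ ((fun g : GL (Fin n) ℂ => (g : Matrix (Fin n) (Fin n) ℂ)) '' H ∩ U :
            Set (Matrix (Fin n) (Fin n) ℂ)),
          ∀ v : V, (e v : Matrix (Fin n) (Fin n) ℂ) =
            NormedSpace.exp ((v : L) : Matrix (Fin n) (Fin n) ℂ) := by
  letI : NormedAlgebra ℚ (Matrix (Fin n) (Fin n) ℂ) := NormedAlgebra.restrictScalars ℚ ℂ _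
  have hK := isClosedGroupSet_of_subgroup hH
  exact ⟨lieAlg _ hK, fun X => mem_lieAlg, fun X hX Y hY => commutator_mem hK hX hY,
    exists_exp_chart hK⟩

/-- **A closed matrix group is locally Euclidean.** -/
theorem exists_chart_subgroup {n : ℕ} {H : Subgroup (GL (Fin n) ℂ)}
    (hH : IsClosed (H : Set (GL (Fin n) ℂ))) :
    ∃ d : ℕ, ∀ x : H, ∃ (U : Set H) (V : Set (Fin d → ℝ)),
      IsOpen U ∧ x ∈ U ∧ IsOpen V ∧ Nonempty (U ≃ₜ V) := by
  letI : NormedAlgebra ℚ (Matrix (Fin n) (Fin n) ℂ) := NormedAlgebra.restrictScalars ℚ ℂ _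
  refine exists_euclidean_chart ((Units.coeHom _).comp H.subtype)
    (Units.isOpenEmbedding_val.isEmbedding.comp IsEmbedding.subtypeVal) ?_
  have h : Set.range ((Units.coeHom (Matrix (Fin n) (Fin n) ℂ)).comp H.subtype) =
      (fun g : GL (Fin n) ℂ => (g : Matrix (Fin n) (Fin n) ℂ)) '' H := by
    ext x
    constructor
    · rintro ⟨g, rfl⟩
      exact ⟨g.1, g.2, rfl⟩
    · rintro ⟨g, hg, rfl⟩
      exact ⟨⟨g, hg⟩, rfl⟩
  rw [h]
  exact isClosedGroupSet_of_subgroup hH

variable {G : Type*} [TopologicalSpace G] [Group G] [IsTopologicalGroup G] [CompactSpace G]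
  [T2Space G]

/-- A continuous representation maps small subgroups to `1`. -/
theorem exists_nhds_map_eq_one {n : ℕ} (ρ : G →* Matrix (Fin n) (Fin n) ℂ) (hc : Continuous ρ) :
    ∃ U : Set G, IsOpen U ∧ 1 ∈ U ∧ ∀ K : Subgroup G, (K : Set G) ⊆ U → ∀ x ∈ K, ρ x = 1 := by
  refine ⟨ρ ⁻¹' Metric.ball 1 (1 / 2), Metric.isOpen_ball.preimage hc, by simp, fun K hK x hx => ?_⟩
  refine ComplexGalois.eq_one_of_pow_near fun k => ?_
  have h := hK (K.pow_mem hx (2 ^ k))
  rwa [Set.mem_preimage, map_pow, Metric.mem_ball, dist_eq_norm] at h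

/-- **Embedded in a unitary group, a group has no small subgroups.** -/
theorem no_small_subgroups_of_embedding {N : ℕ} {π : G →* Matrix.unitaryGroup (Fin N) ℂ}
    (hπ : IsClosedEmbedding π) :
    ∃ U ∈ 𝓝 (1 : G), ∀ K : Subgroup G, (K : Set G) ⊆ U → K = ⊥ := by
  obtain ⟨U, hU, h1, h⟩ := exists_nhds_map_eq_one
    ((Matrix.unitaryGroup (Fin N) ℂ).subtype.comp π) (continuous_subtype_val.comp hπ.continuous)
  refine ⟨U, hU.mem_nhds h1, fun K hK => (Subgroup.eq_bot_iff_forall K).2 fun x hx => ?_⟩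
  refine hπ.injective ?_
  rw [map_one]
  exact Subtype.ext (h K hK x hx)

/-- **A compact group without small subgroups is locally Euclidean.** -/
theorem exists_chart_of_no_small_subgroups {U : Set G} (hU : U ∈ 𝓝 (1 : G))
    (h : ∀ K : Subgroup G, (K : Set G) ⊆ U → K = ⊥) :
    ∃ d : ℕ, ∀ x : G, ∃ (U : Set G) (V : Set (Fin d → ℝ)),
      IsOpen U ∧ x ∈ U ∧ IsOpen V ∧ Nonempty (U ≃ₜ V) := by
  obtain ⟨N, π, hπ⟩ := PeterWeyl.exists_embedding_of_no_small_subgroups hU h
  letI : NormedAlgebra ℚ (Matrix (Fin N) (Fin N) ℂ) := NormedAlgebra.restrictScalars ℚ ℂ _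
  set φ := (Matrix.unitaryGroup (Fin N) ℂ).subtype.comp π with hφ
  have hc : Continuous φ := continuous_subtype_val.comp hπ.continuous
  refine exists_euclidean_chart φ (IsEmbedding.subtypeVal.comp hπ.isEmbedding)
    ⟨fun x _ hx => (isCompact_range hc).isClosed.closure_subset hx, ⟨1, map_one φ⟩,
      fun _ ⟨a, ha⟩ _ ⟨b, hb⟩ => ⟨a * b, by rw [map_mul, ha, hb]⟩,
      fun _ ⟨a, ha⟩ => ⟨φ a⁻¹, ⟨_, rfl⟩, by rw [← ha, ← map_mul, mul_inv_cancel, map_one]⟩⟩

/-- **Kernels of unitary representations are arbitrarily small.** -/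
theorem exists_rep_kernel_subset {U : Set G} (hU : U ∈ 𝓝 (1 : G)) :
    ∃ (N : ℕ) (π : G →* Matrix.unitaryGroup (Fin N) ℂ), Continuous π ∧ (π.ker : Set G) ⊆ U := by
  classical
  have hne : ∀ x : {x : G // x ≠ 1}, ∃ (n : ℕ) (π : G →* Matrix.unitaryGroup (Fin n) ℂ),
      Continuous π ∧ π x ≠ 1 := fun x => by
    obtain ⟨n, π, hc, -, h⟩ := PeterWeyl.exists_rep_ne_one x.2
    exact ⟨n, π, hc, h⟩
  choose n π hc hπ using hne
  obtain ⟨t, ht⟩ := (isOpen_interior (s := U)).isClosed_compl.isCompact.elim_finite_subcover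
    (fun x => {y | π x y ≠ 1}) (fun x => isOpen_ne_fun (hc x) continuous_const) fun y hy =>
      Set.mem_iUnion.2 ⟨⟨y, fun e => hy (e ▸ mem_interior_iff_mem_nhds.2 hU)⟩, hπ _⟩
  have hdom : ∀ s : Finset {x : G // x ≠ 1}, ∃ (N : ℕ) (ρ : G →* Matrix.unitaryGroup (Fin N) ℂ),
      Continuous ρ ∧ ∀ g, ρ g = 1 → ∀ x ∈ s, π x g = 1 := fun s => by
    induction s using Finset.induction_on with
    | empty => exact ⟨1, 1, continuous_const, fun g _ x hx => absurd hx (Finset.notMem_empty x)⟩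
    | insert q s hq ih =>
      obtain ⟨N, ρ, hρ, hdom⟩ := ih
      refine ⟨n q + N, PeterWeyl.sumRep (π q) ρ, PeterWeyl.continuous_sumRep (hc q) hρ,
        fun g hg x hx => ?_⟩
      have h := congrArg Subtype.val (hg.trans (map_one (PeterWeyl.sumHom (n q) N)).symm)
      rw [show PeterWeyl.sumRep (π q) ρ g = PeterWeyl.sumHom (n q) N (π q g, ρ g) from rfl,
        show (1 : Matrix.unitaryGroup (Fin (n q)) ℂ × Matrix.unitaryGroup (Fin N) ℂ) = (1, 1) from rfl,
        PeterWeyl.sumHom_coe, PeterWeyl.sumHom_coe,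
        (Matrix.reindex finSumFinEquiv finSumFinEquiv).injective.eq_iff,
        Matrix.fromBlocks_inj] at h
      rcases Finset.mem_insert.1 hx with rfl | hx
      · exact Subtype.ext h.1
      · exact hdom g (Subtype.ext h.2.2.2) x hx
  obtain ⟨N, ρ, hρ, hd⟩ := hdom t
  refine ⟨N, ρ, hρ, fun y hy => interior_subset (by_contra fun hy' => ?_)⟩
  obtain ⟨x, hx⟩ := Set.mem_iUnion.1 (ht hy')
  obtain ⟨hxt, hxy⟩ := Set.mem_iUnion.1 hx
  exact hxy (hd y hy x hxt)

/-- **Representations of totally disconnected compact groups have finite image.** -/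
theorem finite_range_of_totallyDisconnected [TotallyDisconnectedSpace G] {n : ℕ}
    (ρ : G →* Matrix (Fin n) (Fin n) ℂ) (hc : Continuous ρ) : (Set.range ρ).Finite := by
  obtain ⟨U, hU, h1, h⟩ := exists_nhds_map_eq_one ρ hc
  obtain ⟨K, hK⟩ := ProfiniteGrp.exist_openNormalSubgroup_sub_open_nhds_of_one hU h1
  haveI : Finite (G ⧸ K.toSubgroup) := Subgroup.quotient_finite_of_isOpen _ K.isOpen'
  refine (Set.finite_range fun q : G ⧸ K.toSubgroup => ρ q.out).subset ?_
  rintro _ ⟨g, rfl⟩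
  refine ⟨(g : G ⧸ K.toSubgroup), ?_⟩
  obtain ⟨k, hk⟩ := QuotientGroup.mk_out_eq_mul K.toSubgroup g
  show ρ (Quotient.out (g : G ⧸ K.toSubgroup)) = ρ g
  rw [hk, map_mul, h _ hK _ k.2, mul_one]

end FA.HilbertFifth

end
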