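import Mathlib.Analysis.SpecialFunctions.Exponential
import Mathlib.Analysis.Calculus.InverseFunctionTheorem.FDeriv
import Mathlib.Analysis.Calculus.Deriv.Mul
import Mathlib.Analysis.Calculus.Deriv.Slope
import Mathlib.Analysis.Calculus.Deriv.Comp
import Mathlib.Analysis.Normed.Module.FiniteDimension
import Mathlib.Analysis.Complex.Basic

/-!
# The Lie algebra of a closed group of units

For a closed group `H` inside a finite-dimensional real Banach algebra the `X` with `exp (tX) ∈ H`
for all `t` form a real subspace closed under commutators.  The tool: if `exp Yₖ ∈ H`, `Yₖ → 0` and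
`aₖ Yₖ → X` with `aₖ ≥ 0`, then `exp (tX) ∈ H` for all `t`.
-/

set_option autoImplicit false
set_option linter.unusedSectionVars false

noncomputable section

open NormedSpace Topology Filter

namespace FA.HilbertFifth

/-- A group under multiplication inside a Banach algebra that contains its invertible limit points:
the closed subgroups of the group of units. -/
structure IsClosedGroupSet {A : Type*} [Monoid A] [TopologicalSpace A] (H : Set A) : Prop where
  closed : ∀ x, IsUnit x → x ∈ closure H → x ∈ H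
  one_mem : (1 : A) ∈ H
  mul_mem : ∀ x ∈ H, ∀ y ∈ H, x * y ∈ H
  exists_inv : ∀ x ∈ H, ∃ y ∈ H, x * y = 1

variable {A : Type*} [NormedRing A] [NormedAlgebra ℝ A] [NormedAlgebra ℚ A] [FiniteDimensional ℝ A]
  [CompleteSpace A] {H : Set A}

theorem IsClosedGroupSet.pow_mem (hH : IsClosedGroupSet H) {x : A} (hx : x ∈ H) :
    ∀ n : ℕ, x ^ n ∈ H
  | 0 => by rw [pow_zero]; exact hH.one_mem
  | n + 1 => by rw [pow_succ]; exact hH.mul_mem _ (hH.pow_mem hx n) _ hx

theorem IsClosedGroupSet.exp_neg_mem (hH : IsClosedGroupSet H) {x : A} (hx : exp x ∈ H) :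
    exp (-x) ∈ H := by
  obtain ⟨y, hy, hxy⟩ := hH.exists_inv _ hx
  have h : exp (-x) * exp x = 1 := by
    rw [← exp_add_of_commute (Commute.refl x).neg_left, neg_add_cancel, exp_zero]
  rwa [left_inv_eq_right_inv h hxy]

/-- The set of infinitesimal directions of `H`. -/
def lieSet (H : Set A) : Set A := {X | ∀ t : ℝ, exp (t • X) ∈ H}

/-- **Limits of scaled logarithms are infinitesimal directions.** -/
theorem mem_lieSet_of_tendsto (hH : IsClosedGroupSet H) {Y : ℕ → A} {a : ℕ → ℝ} {X : A}
    (hY : Tendsto Y atTop (𝓝 0)) (hmem : ∀ᶠ k in atTop, exp (Y k) ∈ H) (ha : ∀ k, 0 ≤ a k)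
    (hX : Tendsto (fun k => a k • Y k) atTop (𝓝 X)) : X ∈ lieSet H := by
  suffices key : ∀ t : ℝ, 0 ≤ t → exp (t • X) ∈ H by
    intro t
    rcases le_total 0 t with ht | ht
    · exact key t ht
    · have h := hH.exp_neg_mem (key (-t) (neg_nonneg.2 ht))
      rwa [neg_smul, neg_neg] at h
  intro t ht
  have h1 : Tendsto (fun k => ⌊t * a k⌋₊ • Y k) atTop (𝓝 (t • X)) := by
    have hd : Tendsto (fun k => ((⌊t * a k⌋₊ : ℝ) - t * a k) • Y k) atTop (𝓝 0) := by
      refine squeeze_zero_norm (fun k => ?_) (tendsto_zero_iff_norm_tendsto_zero.1 hY)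
      rw [norm_smul]
      refine mul_le_of_le_one_left (norm_nonneg _) ?_
      rw [Real.norm_eq_abs, abs_le]
      constructor
      · linarith [Nat.lt_floor_add_one (t * a k)]
      · linarith [Nat.floor_le (mul_nonneg ht (ha k))]
    have h := hd.add (hX.const_smul t)
    rw [zero_add] at h
    refine h.congr fun k => ?_
    rw [sub_smul, smul_smul, sub_add_cancel, Nat.cast_smul_eq_nsmul]
  refine hH.closed _ (isUnit_exp _) (mem_closure_of_tendsto ((exp_continuous.tendsto _).comp h1) ?_)
  filter_upwards [hmem] with k hk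
  show exp (⌊t * a k⌋₊ • Y k) ∈ H
  rw [exp_nsmul]
  exact hH.pow_mem hk _

theorem hasStrictFDerivAt_exp_equiv :
    HasStrictFDerivAt (exp : A → A) ((ContinuousLinearEquiv.refl ℝ A : A ≃L[ℝ] A) : A →L[ℝ] A) 0 :=
  hasStrictFDerivAt_exp_zero

/-- The logarithm near `1`: the local inverse of the exponential. -/
def logNear : A → A :=
  (hasStrictFDerivAt_exp_equiv (A := A)).localInverse exp (ContinuousLinearEquiv.refl ℝ A) 0

theorem hasStrictFDerivAt_logNear :
    HasStrictFDerivAt (logNear : A → A) (ContinuousLinearMap.id ℝ A) 1 := by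
  have h := (hasStrictFDerivAt_exp_equiv (A := A)).to_localInverse
  rw [exp_zero] at h
  exact h

theorem logNear_one : logNear (1 : A) = 0 := by
  have h := (hasStrictFDerivAt_exp_equiv (A := A)).localInverse_apply_image
  rwa [exp_zero] at h

theorem eventually_exp_logNear : ∀ᶠ y in 𝓝 (1 : A), exp (logNear y) = y := by
  have h := (hasStrictFDerivAt_exp_equiv (A := A)).eventually_right_inverse
  rw [exp_zero] at h
  exact h

theorem eventually_logNear_exp : ∀ᶠ x in 𝓝 (0 : A), logNear (exp x) = x :=
  (hasStrictFDerivAt_exp_equiv (A := A)).eventually_left_inverse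

/-- A differentiable curve in `H` through `1` has its velocity in the set of directions. -/
theorem mem_lieSet_of_curve (hH : IsClosedGroupSet H) {c : ℝ → A} {V : A} (hc : HasDerivAt c V 0)
    (h0 : c 0 = 1) (hmem : ∀ s, c s ∈ H) : V ∈ lieSet H := by
  have hF : HasDerivAt (fun s => logNear (c s)) V 0 := by
    have h := hasStrictFDerivAt_logNear (A := A)
    rw [← h0] at h
    exact (HasStrictFDerivAt.hasFDerivAt h).comp_hasDerivAt 0 hc
  have hs : Tendsto (fun k : ℕ => 1 / ((k : ℝ) + 1)) atTop (𝓝[>] 0) :=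
    tendsto_nhdsWithin_iff.2 ⟨tendsto_one_div_add_atTop_nhds_zero_nat,
      Eventually.of_forall fun k => Set.mem_Ioi.2 Nat.one_div_pos_of_nat⟩
  have hlim := hF.tendsto_slope_zero_right.comp hs
  have hs0 : Tendsto (fun k : ℕ => 1 / ((k : ℝ) + 1)) atTop (𝓝 0) :=
    tendsto_one_div_add_atTop_nhds_zero_nat
  have hY : Tendsto (fun k : ℕ => logNear (c (1 / ((k : ℝ) + 1)))) atTop (𝓝 0) := by
    have h := hF.continuousAt.tendsto.comp hs0
    rw [h0, logNear_one] at h
    exact h
  refine mem_lieSet_of_tendsto hH hY ?_ (a := fun k : ℕ => (k : ℝ) + 1) (fun k => by positivity) ?_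
  · have hc0 : Tendsto (fun k : ℕ => c (1 / ((k : ℝ) + 1))) atTop (𝓝 1) := by
      have h := hc.continuousAt.tendsto.comp hs0
      rwa [h0] at h
    filter_upwards [hc0.eventually eventually_exp_logNear] with k hk
    rw [hk]
    exact hmem _
  · refine hlim.congr fun k => ?_
    simp [h0, logNear_one]

theorem hasDerivAt_exp_line (X : A) : HasDerivAt (fun s : ℝ => exp (s • X)) X 0 := by
  have h := hasDerivAt_exp_smul_const X (0 : ℝ)
  rwa [zero_smul, exp_zero, one_mul] at h

theorem add_mem_lieSet (hH : IsClosedGroupSet H) {X Y : A} (hX : X ∈ lieSet H) (hY : Y ∈ lieSet H) :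
    X + Y ∈ lieSet H := by
  refine mem_lieSet_of_curve hH (c := fun s => exp (s • X) * exp (s • Y)) ?_ ?_ fun s =>
    hH.mul_mem _ (hX s) _ (hY s)
  · simpa using (hasDerivAt_exp_line X).fun_mul (hasDerivAt_exp_line Y)
  · simp

variable (H) in
/-- The Lie algebra of a closed group. -/
def lieAlg (hH : IsClosedGroupSet H) : Submodule ℝ A where
  carrier := lieSet H
  add_mem' := add_mem_lieSet hH
  zero_mem' t := by rw [smul_zero, exp_zero]; exact hH.one_mem
  smul_mem' c X hX t := by rw [smul_smul]; exact hX _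

theorem mem_lieAlg {hH : IsClosedGroupSet H} {X : A} :
    X ∈ lieAlg H hH ↔ ∀ t : ℝ, exp (t • X) ∈ H := Iff.rfl

/-- **The Lie algebra is closed under commutators.** -/
theorem commutator_mem (hH : IsClosedGroupSet H) {X Y : A} (hX : X ∈ lieAlg H hH)
    (hY : Y ∈ lieAlg H hH) : X * Y - Y * X ∈ lieAlg H hH := by
  have hconj : ∀ s : ℝ, exp (s • X) * Y * exp (-(s • X)) ∈ lieAlg H hH := fun s t => by
    let u : Aˣ :=
      { val := exp (s • X)
        inv := exp (-(s • X))
        val_inv := by
          rw [← exp_add_of_commute (Commute.refl _).neg_right, add_neg_cancel, exp_zero]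
        inv_val := by
          rw [← exp_add_of_commute (Commute.refl _).neg_left, neg_add_cancel, exp_zero] }
    have e : t • (exp (s • X) * Y * exp (-(s • X))) = (u : A) * (t • Y) * ((u⁻¹ : Aˣ) : A) := by
      show _ = exp (s • X) * (t • Y) * exp (-(s • X))
      rw [mul_smul_comm, smul_mul_assoc]
    rw [e, exp_units_conj]
    exact hH.mul_mem _ (hH.mul_mem _ (hX s) _ (hY t)) _ (hH.exp_neg_mem (hX s))
  have hd : HasDerivAt (fun s : ℝ => exp (s • X) * Y * exp (-(s • X))) (X * Y - Y * X) 0 := by
    have h2 : HasDerivAt (fun s : ℝ => exp (-(s • X))) (-X) 0 := by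
      simpa only [smul_neg] using hasDerivAt_exp_line (-X)
    have h := ((hasDerivAt_exp_line X).mul_const Y).fun_mul h2
    simpa [sub_eq_add_neg] using h
  refine (Submodule.closed_of_finiteDimensional (lieAlg H hH)).mem_of_tendsto
    hd.tendsto_slope_zero_right (Eventually.of_forall fun s => ?_)
  exact Submodule.smul_mem _ _ (Submodule.sub_mem _ (hconj _) (hconj 0))

end FA.HilbertFifth

end
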